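import Fermat.Agent.S17.WMW.Setup
import Fermat.Agent.GR.C.Open

/-!
# S17-WMW : places, divisors and divisor classes have open stabilisers in `G_ℚ`
-/

set_option autoImplicit false
set_option synthInstance.maxHeartbeats 400000

noncomputable section

namespace Fermat.Agent.S17.WMW

open AlgebraicCurve ModularCurve

variable (N : ℕ) [NeZero N]

/-- functions: this is `GR.C.exists_finite_level` of GR/C/Open.lean with `k = ℚ`, `K = Qb` (+ `S18.bar_eq_FF`; do NOT import GR/C/Level.lean: name clash). -/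
theorem exists_level_fun (f : FB N) :
    ∃ L : IntermediateField ℚ Qb, FiniteDimensional ℚ L ∧
      ∀ τ ∈ L.fixingSubgroup, gal N τ • f = f := by
  have hf : (f : LaurentSeries Qb) ∈ GR.FF Qb N := by
    rw [← S18.bar_eq_FF N]; exact f.2
  have : Algebra.IsAlgebraic ℚ Qb := AlgebraicClosure.isAlgebraic ℚ
  obtain ⟨L, hL, h⟩ := GR.C.exists_finite_level (k := ℚ) (K := Qb) N (f : LaurentSeries Qb) hf
  refine ⟨L, hL, fun τ hτ => Subtype.ext ?_⟩
  rw [coe_gal_smul]
  exact h τ fun a ha => (IntermediateField.mem_fixingSubgroup_iff L τ).1 hτ a ha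

theorem OpenStab_mem_left {L₁ L₂ : IntermediateField ℚ Qb} {τ : GQ}
    (h : τ ∈ (L₁ ⊔ L₂).fixingSubgroup) : τ ∈ L₁.fixingSubgroup := by
  rw [IntermediateField.mem_fixingSubgroup_iff] at h ⊢
  exact fun a ha => h a (le_sup_left (a := L₁) ha)

theorem OpenStab_mem_right {L₁ L₂ : IntermediateField ℚ Qb} {τ : GQ}
    (h : τ ∈ (L₁ ⊔ L₂).fixingSubgroup) : τ ∈ L₂.fixingSubgroup := by
  rw [IntermediateField.mem_fixingSubgroup_iff] at h ⊢
  exact fun a ha => h a (le_sup_right (a := L₁) ha)

theorem OpenStab_exists_level_finset (s : Finset (FB N)) :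
    ∃ L : IntermediateField ℚ Qb, FiniteDimensional ℚ L ∧
      ∀ τ ∈ L.fixingSubgroup, ∀ f ∈ s, gal N τ • f = f := by
  classical
  induction s using Finset.induction_on with
  | empty => exact ⟨⊥, inferInstance, fun _ _ f hf => absurd hf (Finset.notMem_empty f)⟩
  | insert a s _ ih =>
    obtain ⟨L₁, h₁, hs⟩ := ih
    obtain ⟨L₂, h₂, ha⟩ := exists_level_fun N a
    refine ⟨L₁ ⊔ L₂, IntermediateField.finiteDimensional_sup _ _, fun τ hτ f hf => ?_⟩
    rcases Finset.mem_insert.1 hf with rfl | hf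
    · exact ha τ (OpenStab_mem_right hτ)
    · exact hs τ (OpenStab_mem_left hτ) f hf

/-- two distinct places are separated by a function.
[`O_w ⊆ O_v` is impossible for two distinct DVRs with the same fraction field: if `O_w ≤ O_v`, take
`π` with `ord_v π = 1`... or use that a valuation subring containing a DVR `O_w` is `O_w` or `⊤`
(`ValuationSubring` API: `primeSpectrumEquiv`/`idealOfLE`), or `ord` computations: if `ord_w g ≥ 0 →
ord_v g ≥ 0` for all `g`, apply this to `g = t^a / s^b`.  S24/ZerosCore, S24/Zeros may already contain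
such a lemma: grep `eq_of_le`, `toValuationSubring` there.] -/
theorem exists_ord_neg_of_ne {v w : Place Qb (FB N)} (h : v ≠ w) :
    ∃ g : FB N, v.ord g < 0 ∧ 0 ≤ w.ord g := by
  by_contra hcon
  push Not at hcon
  apply h
  symm
  apply Place.ext
  refine ValuationSubring.eq_of_le_of_ne_top _ ?_ v.ne_top'
  intro g hg
  rw [S24.Zeros.mem_iff_ord_nonneg'] at hg ⊢
  by_contra hlt
  exact absurd hg (not_le.2 (hcon g (not_le.1 hlt)))

/-- PROOF. Take `f ≠ 0` with `ord_v f > 0` (a uniformiser).  `Z := {w | 0 < ord_w f}` is finite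
(`FF.finite_support_ord'`, instance `isFF_bar N`).  For `w ∈ Z`, `w ≠ v` take `g_w` with `ord_v g_w < 0 ≤
ord_w g_w`.  `L` := a common level of `f` and of all the `g_w`.  For `τ ∈ G_L`: `ord_{τ v} f = ord_{τ v} (τ f) =
ord_v f > 0`, so `τ v ∈ Z`; if `τ v = w ≠ v` then `ord_w g_w = ord_{τ v} (τ g_w) = ord_v g_w < 0`: contradiction. -/
theorem exists_level_place (v : Place Qb (FB N)) :
    ∃ L : IntermediateField ℚ Qb, FiniteDimensional ℚ L ∧
      ∀ τ ∈ L.fixingSubgroup, gal N τ • v = v := by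
  classical
  have := isFF_bar N
  obtain ⟨f, hf⟩ : ∃ f : FB N, v.ord f = 1 := by
    obtain ⟨π, hπ⟩ := IsDiscreteValuationRing.exists_irreducible v.toValuationSubring
    exact ⟨π, v.ord_coe_irreducible hπ⟩
  have hfin : {w : Place Qb (FB N) | 0 < w.ord f}.Finite :=
    (FF.finite_support_ord' (K := Qb) f).subset fun w hw => ne_of_gt hw
  have hex : ∀ w : Place Qb (FB N), ∃ g : FB N, w ≠ v → v.ord g < 0 ∧ 0 ≤ w.ord g := by
    intro w
    by_cases hw : w = v
    · exact ⟨0, fun h => absurd hw h⟩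
    · obtain ⟨g, hg⟩ := exists_ord_neg_of_ne N (Ne.symm hw)
      exact ⟨g, fun _ => hg⟩
  choose g hg using hex
  obtain ⟨L, hL, hfix⟩ := OpenStab_exists_level_finset N (insert f (hfin.toFinset.image g))
  refine ⟨L, hL, fun τ hτ => ?_⟩
  by_contra hne
  have h1 : 0 < (gal N τ • v).ord f := by
    have := ord_gal_smul N τ v f
    rw [hfix τ hτ f (Finset.mem_insert_self _ _)] at this
    rw [this, hf]
    exact one_pos
  have h2 := hg _ hne
  have h3 := ord_gal_smul N τ v (g (gal N τ • v))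
  rw [hfix τ hτ _ (Finset.mem_insert_of_mem (Finset.mem_image_of_mem g
    (hfin.mem_toFinset.2 h1)))] at h3
  omega

/-- [`Finsupp.induction`, `SemilinearAut.smul_single`, `IntermediateField.finiteDimensional_sup`.] -/
theorem exists_level_divisor (D : Divisor Qb (FB N)) :
    ∃ L : IntermediateField ℚ Qb, FiniteDimensional ℚ L ∧
      ∀ τ ∈ L.fixingSubgroup, gal N τ • D = D := by
  induction D using Finsupp.induction_linear with
  | zero => exact ⟨⊥, inferInstance, fun τ _ => smul_zero _⟩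
  | add D E hD hE =>
    obtain ⟨L₁, h₁, hD⟩ := hD
    obtain ⟨L₂, h₂, hE⟩ := hE
    refine ⟨L₁ ⊔ L₂, IntermediateField.finiteDimensional_sup _ _, fun τ hτ => ?_⟩
    rw [smul_add, hD τ (OpenStab_mem_left hτ), hE τ (OpenStab_mem_right hτ)]
  | single v n =>
    obtain ⟨L, hL, h⟩ := exists_level_place N v
    refine ⟨L, hL, fun τ hτ => ?_⟩
    rw [SemilinearAut.smul_single, h τ hτ]

/-- **(Open)** -/
theorem exists_level_class (y : JZero N) :
    ∃ L : IntermediateField ℚ Qb, FiniteDimensional ℚ L ∧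
      ∀ τ ∈ L.fixingSubgroup, τ • y = y := by
  obtain ⟨D, rfl⟩ := Pic0.mk_surjective y
  obtain ⟨L, hL, h⟩ := exists_level_divisor N (D : Divisor Qb (FB N))
  refine ⟨L, hL, fun τ hτ => ?_⟩
  rw [smul_mk]
  refine congrArg Pic0.mk (Subtype.ext ?_)
  rw [SemilinearAut.coe_degZeroSMulHom, h τ hτ]

end Fermat.Agent.S17.WMW
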