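import Fermat.Agent.S17.FF.Defs
import Fermat.Agent.S18.Final
import Fermat.Agent.S18.PlaceInf
import Fermat.Agent.GR.C.Basic
import Fermat.Prelude.Def_ModularCurve_ArithmeticGalois

/-!
# S17-WMW : setup for the concrete curve

`FB N = ℚ̄(X₀(N)) ⊆ ℚ̄((q))`, `gal N σ` the semilinear automorphism attached to `σ ∈ G_ℚ`,
`oo N` the `q`-adic place (fixed by `G_ℚ`).
-/

set_option autoImplicit false
set_option synthInstance.maxHeartbeats 400000

noncomputable section

namespace Fermat.Agent.S17.WMW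

open AlgebraicCurve ModularCurve

abbrev Qb : Type := AlgebraicClosure ℚ
abbrev GQ : Type := Qb ≃ₐ[ℚ] Qb

/-- the function field of `X₀(N)` over `ℚ̄`. -/
abbrev FB (N : ℕ) : IntermediateField Qb (LaurentSeries Qb) := modularFunctionFieldBar N

/-- the action of `G_ℚ` on the function field (on the coefficients of `q`-expansions). -/
abbrev gal (N : ℕ) (σ : GQ) : SemilinearAut Qb (FB N) :=
  arithmeticGalois (modularFunctionFieldFull N) σ

variable (N : ℕ)

theorem coe_gal_smul (σ : GQ) (f : FB N) :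
    ((gal N σ • f : FB N) : LaurentSeries Qb) = coeffMap (σ : Qb →+* Qb) (f : LaurentSeries Qb) :=
  rfl

theorem smul_def (σ : GQ) (x : JZero N) : σ • x = gal N σ • x := rfl

theorem smul_mk (σ : GQ) (D : Divisor.degZero (K := Qb) (F := FB N)) :
    σ • (Pic0.mk D : JZero N) = Pic0.mk (SemilinearAut.degZeroSMulHom (gal N σ) D) := rfl

variable {N} in
theorem mk_eq_zero_iff (D : Divisor.degZero (K := Qb) (F := FB N)) :
    (Pic0.mk D : JZero N) = 0 ↔ Divisor.IsPrincipal (D : Divisor Qb (FB N)) := by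
  unfold Pic0.mk
  rw [QuotientAddGroup.eq_zero_iff, AddSubgroup.mem_addSubgroupOf]
  rfl

variable {N} in
theorem mk_eq_mk_iff (D E : Divisor.degZero (K := Qb) (F := FB N)) :
    (Pic0.mk D : JZero N) = Pic0.mk E ↔
      Divisor.IsPrincipal ((D : Divisor Qb (FB N)) - (E : Divisor Qb (FB N))) := by
  rw [← sub_eq_zero, show (Pic0.mk D : JZero N) - Pic0.mk E = Pic0.mk (D - E) from rfl,
    mk_eq_zero_iff]
  rfl

/-- orders and the Galois action. -/
theorem ord_gal_smul (σ : GQ) (v : Place Qb (FB N)) (f : FB N) :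
    (gal N σ • v).ord (gal N σ • f) = v.ord f :=
  SemilinearAut.ord_smul _ _ _

theorem ord_gal_smul' (σ : GQ) (v : Place Qb (FB N)) (f : FB N) :
    v.ord (gal N σ • f) = ((gal N σ)⁻¹ • v).ord f := by
  have := ord_gal_smul N σ ((gal N σ)⁻¹ • v) f
  rwa [smul_inv_smul] at this

theorem isFF_bar [NeZero N] : FF.IsFF Qb (FB N) :=
  ⟨⟨S24.jF N, S24.transcendental_jF N, S24.finiteDimensional_FF N⟩⟩

theorem exists_order_ne_zero : ∃ x : FB N, (x : LaurentSeries Qb).order ≠ 0 := by
  refine ⟨⟨jqModC Qb, ?_⟩, ?_⟩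
  · rw [show FB N = GR.FF Qb N from S18.bar_eq_FF N]
    exact jqModC_mem_full Qb N
  · have h : (jqModC Qb).coeff (-1) ≠ 0 := by
      rw [coeff_jqModC_neg_one]
      exact one_ne_zero
    have := HahnSeries.order_le_of_coeff_ne_zero h
    show (jqModC Qb).order ≠ 0
    omega

/-- the `q`-adic place. -/
def oo : Place Qb (FB N) := S18.pinfPlace (FB N) (exists_order_ne_zero N)

theorem mem_oo (f : FB N) : f ∈ (oo N).toValuationSubring ↔ 0 ≤ (f : LaurentSeries Qb).order :=
  Iff.rfl

/-- the `q`-adic place is rational. -/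
theorem gal_smul_oo (σ : GQ) : gal N σ • oo N = oo N := by
  apply Place.ext
  ext f
  rw [SemilinearAut.smul_toValuationSubring, ValuationSubring.mem_pointwise_smul_iff_inv_smul_mem,
    mem_oo, mem_oo, ← map_inv, coe_gal_smul, GR.C.coeffMap_order]

end Fermat.Agent.S17.WMW
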