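import Fermat.Agent.S17.WMW.Setup
import Fermat.Agent.GR.I.Iface

/-!
# S17-WMW : (Fin) `J₀(N)[n]` is finite, from the interface `GR.I.KummerData`
-/

set_option autoImplicit false
set_option synthInstance.maxHeartbeats 400000

noncomputable section

namespace Fermat.Agent.S17.WMW

open AlgebraicCurve ModularCurve Fermat.Agent.GR

variable {N : ℕ} [NeZero N]

/-- the image of `Λ` in `X n` is finite.  [`Λ` is a f.g. `ℤ`-module, `red n` kills `n Λ`:
`Λ ⧸ n Λ` is finite (`Module.finite_of_fg_torsion`, or `Module.Finite` over `ZMod n`, or a basis: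
`Λ ≃ Fin r → ℤ`, the image is the image of the finite set `Fin r → Finset.range n`).] -/
theorem finite_range_red (D : I.KummerData N) (n : ℕ) (hn : 0 < n) :
    (Set.range (D.red n)).Finite := by
  let f : D.Λ →ₗ[ℤ] D.X n := (D.red n).toIntLinearMap
  have hfin : Module.Finite ℤ (LinearMap.range f) := inferInstance
  have htors : Module.IsTorsion ℤ (LinearMap.range f) := by
    rintro ⟨_, x, rfl⟩
    refine ⟨⟨(n : ℤ), mem_nonZeroDivisors_of_ne_zero (by positivity)⟩, ?_⟩
    apply Subtype.ext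
    show (n : ℤ) • f x = 0
    rw [← map_smul]
    exact (D.red_eq_zero_iff n _).2 ⟨x, rfl⟩
  have hF : Finite (LinearMap.range f) := Module.finite_of_fg_torsion _ htors
  have e : Set.range (D.red n) = (LinearMap.range f : Set (D.X n)) := by
    ext y
    rfl
  rw [e]
  exact Set.toFinite _

/-- auxiliary: `t` is the Kummer class of a function `u` with `div u = n E`, `z = [E]`. -/
def Fin_Rel (D : I.KummerData N) (n : ℕ) (z : JZero N) (t : D.X n) : Prop :=
  ∃ (E : Divisor.degZero (K := Qb) (F := FB N)) (u : FB N), Pic0.mk E = z ∧ u ≠ 0 ∧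
    (∀ v : Place Qb (FB N), (n : ℤ) * (E : Divisor Qb (FB N)) v = v.ord u) ∧
    D.theta n (u : LaurentSeries Qb) = t

omit [NeZero N] in
/-- auxiliary: such a `u` is a Kummer function. -/
theorem Fin_isKummer (n : ℕ) (E : Divisor Qb (FB N)) (u : FB N) (hu : u ≠ 0)
    (h : ∀ v : Place Qb (FB N), (n : ℤ) * E v = v.ord u) :
    IsKummer (N := N) n (u : LaurentSeries Qb) := by
  have hmem : (u : LaurentSeries Qb) ∈ GR.FF Qb N := by
    rw [← S18.bar_eq_FF N]
    exact u.2
  refine ⟨fun h0 => hu (Subtype.ext h0), hmem, ?_⟩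
  refine S18.dvd_ord_transport (S18.bar_eq_FF N) n _ u.2 hmem fun v => ?_
  exact ⟨E v, (h v).symm⟩

theorem Fin_exists_rel (D : I.KummerData N) (n : ℕ) (hn : 0 < n) (z : JZero N) (hz : n • z = 0) :
    ∃ t ∈ Set.range (D.red n), Fin_Rel D n z t := by
  obtain ⟨E, rfl⟩ := Pic0.mk_surjective z
  have h1 : (Pic0.mk (n • E) : JZero N) = 0 := hz
  rw [mk_eq_zero_iff] at h1
  obtain ⟨u, hu, hv⟩ := h1
  have hv' : ∀ v : Place Qb (FB N), (n : ℤ) * (E : Divisor Qb (FB N)) v = v.ord u := by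
    intro v
    rw [← hv v, AddSubgroup.coe_nsmul, Finsupp.smul_apply, nsmul_eq_mul]
  obtain ⟨x, hx⟩ := D.theta_mem n hn _ (Fin_isKummer n E u hu hv')
  exact ⟨_, ⟨x, hx⟩, E, u, rfl, hu, hv', rfl⟩

theorem Fin_rel_inj (D : I.KummerData N) (n : ℕ) (hn : 0 < n) {z z' : JZero N} {t : D.X n}
    (h : Fin_Rel D n z t) (h' : Fin_Rel D n z' t) : z = z' := by
  obtain ⟨E, u, rfl, hu, hv, ht⟩ := h
  obtain ⟨E', u', rfl, hu', hv', ht'⟩ := h'
  have hk := (D.theta_eq_iff n hn _ _ (Fin_isKummer n E u hu hv) (Fin_isKummer n E' u' hu' hv')).1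
    (ht.trans ht'.symm)
  obtain ⟨w, hw, hw0, hww⟩ := hk
  have hwB : w ∈ FB N := by
    rw [show FB N = GR.FF Qb N from S18.bar_eq_FF N]
    exact hw
  have hw0' : (⟨w, hwB⟩ : FB N) ≠ 0 := fun h0 => hw0 (congrArg Subtype.val h0)
  have huu : u' = u * (⟨w, hwB⟩ : FB N) ^ n := Subtype.ext hww
  symm
  rw [mk_eq_mk_iff]
  refine ⟨⟨w, hwB⟩, hw0', fun v => ?_⟩
  have h1 := hv' v
  rw [huu, v.ord_mul hu (pow_ne_zero n hw0'), ← zpow_natCast, v.ord_zpow, ← hv v, ← mul_add] at h1
  have hn0 : (n : ℤ) ≠ 0 := by positivity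
  have h2 := mul_left_cancel₀ hn0 h1
  rw [Finsupp.sub_apply, h2]
  ring

/-- PROOF. For `z = [E]` with `n z = 0`: `n E = div u`, `u ≠ 0` (`mk_eq_zero_iff`), so `u` (as a Laurent series)
satisfies `IsKummer (N := N) n u` (transport along `S18.bar_eq_FF N` with `S18.dvd_ord_transport`).
Choose such a `u_z` and map `z ↦ D.theta n u_z ∈ Set.range (D.red n)` (`theta_mem`).  Injective: `theta_eq_iff` gives
`u_z' = u_z * w ^ n`, so `n E' = n E + n div w`, `E' = E + div w` (torsion free), `z' = z`.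
`Set.Finite.of_injOn` / `Finite.of_injective`. -/
theorem finite_torsion (D : I.KummerData N) (n : ℕ) (hn : 0 < n) :
    {z : JZero N | n • z = 0}.Finite := by
  have hex : ∀ z : {z : JZero N | n • z = 0}, ∃ t : Set.range (D.red n), Fin_Rel D n z.1 t.1 := by
    rintro ⟨z, hz⟩
    obtain ⟨t, ht, hr⟩ := Fin_exists_rel D n hn z hz
    exact ⟨⟨t, ht⟩, hr⟩
  choose g hg using hex
  have hF : Finite (Set.range (D.red n)) := (finite_range_red D n hn).to_subtype
  have hinj : Function.Injective g := by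
    intro z z' hzz
    apply Subtype.ext
    refine Fin_rel_inj D n hn (hg z) ?_
    rw [hzz]
    exact hg z'
  have hF' : Finite {z : JZero N | n • z = 0} := Finite.of_injective g hinj
  exact Set.toFinite _

end Fermat.Agent.S17.WMW
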