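import Fermat.Agent.S17.WMW.Setup
import Fermat.Agent.S17.FF.Index

/-!
# S17-WMW : (RAT) a `G_ℚ`-invariant class contains a `G_ℚ`-stable divisor
-/

set_option autoImplicit false
set_option synthInstance.maxHeartbeats 400000

noncomputable section

namespace Fermat.Agent.S17.WMW

open AlgebraicCurve ModularCurve

section abstract

variable {K F : Type*} [Field K] [Field F] [Algebra K F] [IsAlgClosed K] [CharZero K] [FF.IsFF K F]

theorem Rat_isPrincipal_divf {f : F} (hf : f ≠ 0) : Divisor.IsPrincipal (FF.divf (K := K) f) :=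
  ⟨f, hf, fun _ => rfl⟩

theorem Rat_eq_divf {D : Divisor K F} {f : F} (h : ∀ v : Place K F, D v = v.ord f) :
    D = FF.divf f :=
  Finsupp.ext h

theorem Rat_degree_of_isPrincipal {D : Divisor K F} (h : Divisor.IsPrincipal D) :
    Divisor.degree D = 0 := by
  obtain ⟨f, _, hD⟩ := h
  rw [Rat_eq_divf hD, FF.degree_divf]

/-- the reduced representative: for every divisor `D` there are `m : ℤ` and an effective `E` with
`E - (D + m ∞)` principal and `ℓ(E) = 1`.
[`m` minimal with `0 < ell (D + m ∞)`: exists since `ell = 0` for `deg < 0` (`FF.ell_eq_zero_of_degree_neg`)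
and `> 0` for `deg ≥ g` (`FF.exists_ne_zero_mem_LSpace`, `FF.ell_pos_iff`); use `Int.exists_least_of_bdd` or
`Nat.find` after a shift.  `FF.ell_eq_one_of_minimal`.  `0 ≠ f ∈ L(D + m ∞)`, `E := D + m ∞ + divf f ≥ 0`
(`FF.mem_LSpace_of_ne_zero`), `FF.ell_add_divf`.] -/
theorem exists_reduced (oo : Place K F) (D : Divisor K F) :
    ∃ (m : ℤ) (E : Divisor K F), 0 ≤ E ∧ FF.ell E = 1 ∧
      Divisor.IsPrincipal (E - (D + Finsupp.single oo m)) := by
  have hdeg : ∀ m : ℤ, Divisor.degree (D + Finsupp.single oo m) = Divisor.degree D + m := by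
    intro m
    rw [map_add, FF.degree_single']
  obtain ⟨m, hm, hmin⟩ := Int.exists_least_of_bdd
    (P := fun m : ℤ => 0 < FF.ell (D + Finsupp.single oo m))
    ⟨-Divisor.degree D, fun z hz => by
      by_contra hlt
      rw [not_le] at hlt
      have : FF.ell (D + Finsupp.single oo z) = 0 :=
        FF.ell_eq_zero_of_degree_neg (by rw [hdeg]; linarith)
      omega⟩
    ⟨(FF.genus K F : ℤ) - Divisor.degree D, by
      rw [FF.ell_pos_iff]
      exact FF.exists_ne_zero_mem_LSpace (by rw [hdeg]; linarith)⟩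
  have h0 : FF.ell (D + Finsupp.single oo m - Finsupp.single oo 1) = 0 := by
    have e : D + Finsupp.single oo m - Finsupp.single oo 1 = D + Finsupp.single oo (m - 1) := by
      rw [add_sub_assoc, ← Finsupp.single_sub]
    rw [e]
    by_contra hne
    have := hmin (m - 1) (Nat.pos_of_ne_zero hne)
    omega
  have h1 : FF.ell (D + Finsupp.single oo m) = 1 := FF.ell_eq_one_of_minimal _ oo hm h0
  obtain ⟨f, hf, hf0⟩ := FF.ell_pos_iff.mp hm
  refine ⟨m, D + Finsupp.single oo m + FF.divf f, ?_, ?_, ?_⟩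
  · rw [add_comm]
    exact (FF.mem_LSpace_of_ne_zero hf0).mp hf
  · rw [FF.ell_add_divf _ hf0, h1]
  · rw [add_sub_cancel_left]
    exact Rat_isPrincipal_divf hf0

/-- uniqueness: an effective divisor `E` with `ℓ(E) = 1` is the only effective divisor in its class.
[`E' - E = div h`, `h ∈ L(E)` because `E' ≥ 0`, `1 ∈ L(E)` because `E ≥ 0`,
`FF.exists_smul_eq_of_ell_eq_one` ⟹ `h` constant ⟹ `div h = 0` (`S18.pinf_ord_algebraMap`).] -/
theorem eq_of_isPrincipal_sub {E E' : Divisor K F} (hE : 0 ≤ E) (hE' : 0 ≤ E') (h1 : FF.ell E = 1)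
    (h : Divisor.IsPrincipal (E' - E)) : E' = E := by
  obtain ⟨f, hf0, hf⟩ := h
  have hdiv : E' - E = FF.divf f := Rat_eq_divf hf
  have hfL : f ∈ FF.LSpace E := by
    rw [FF.mem_LSpace_of_ne_zero hf0, ← hdiv, sub_add_cancel]
    exact hE'
  have h1L : (1 : F) ∈ FF.LSpace E := by
    rw [FF.mem_LSpace_of_ne_zero one_ne_zero]
    have : FF.divf (K := K) (1 : F) = 0 := by
      have := FF.divf_algebraMap (K := K) (F := F) 1
      rwa [map_one] at this
    rw [this, zero_add]
    exact hE
  obtain ⟨c, hc⟩ := FF.exists_smul_eq_of_ell_eq_one h1 h1L hfL one_ne_zero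
  rw [mul_one] at hc
  rw [hc, FF.divf_algebraMap] at hdiv
  exact sub_eq_zero.mp hdiv

end abstract

variable (N : ℕ) [NeZero N]

/-- **(RAT)**.  PROOF. `x = [D]`, `(m, E)` := `exists_reduced (oo N) D` (instance `isFF_bar N`).
For `σ : GQ`: `σ E ≥ 0`, and `σ E - E = (σ E - σ(D + m ∞)) + (σ D - D) - (E - (D + m ∞))` is principal
(`SemilinearAut.smul_mem_principal`, `gal_smul_oo`, `σ • x = x` via `smul_mk`, `mk_eq_mk_iff`), so
`σ E = E` by `eq_of_isPrincipal_sub`.  `D₀ := E - m ∞`: degree `0` because it differs from `D` by a principal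
divisor (`S18.hasPrincipalDivisors_bar` / `FF.degree_divf`), stable, and `[D₀] = [D]`. -/
theorem exists_stable_divisor (x : JZero N) (hx : ∀ σ : GQ, σ • x = x) :
    ∃ D₀ : Divisor.degZero (K := Qb) (F := FB N), (Pic0.mk D₀ : JZero N) = x ∧
      ∀ σ : GQ, gal N σ • (D₀ : Divisor Qb (FB N)) = D₀ := by
  have hFF : FF.IsFF Qb (FB N) := isFF_bar N
  obtain ⟨D, rfl⟩ := Pic0.mk_surjective x
  obtain ⟨m, E, hE0, hE1, hEp⟩ := exists_reduced (oo N) (D : Divisor Qb (FB N))
  have hstab : ∀ σ : GQ, gal N σ • E = E := by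
    intro σ
    apply eq_of_isPrincipal_sub hE0 _ hE1
    · have h1 : Divisor.IsPrincipal (gal N σ • (E - ((D : Divisor Qb (FB N)) +
          Finsupp.single (oo N) m))) := SemilinearAut.smul_mem_principal (gal N σ) hEp
      have h2 : Divisor.IsPrincipal (gal N σ • (D : Divisor Qb (FB N)) -
          (D : Divisor Qb (FB N))) := by
        have := hx σ
        rw [smul_mk, mk_eq_mk_iff] at this
        exact this
      have h3 := (Divisor.principal (K := Qb) (F := FB N)).sub_mem
        ((Divisor.principal (K := Qb) (F := FB N)).add_mem h1 h2) hEp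
      have e : gal N σ • (E - ((D : Divisor Qb (FB N)) + Finsupp.single (oo N) m)) +
          (gal N σ • (D : Divisor Qb (FB N)) - (D : Divisor Qb (FB N))) -
          (E - ((D : Divisor Qb (FB N)) + Finsupp.single (oo N) m)) = gal N σ • E - E := by
        rw [smul_sub, smul_add, SemilinearAut.smul_single, gal_smul_oo]
        abel
      rw [e] at h3
      exact h3
    · intro w
      rw [SemilinearAut.divisor_smul_apply]
      exact hE0 _
  have hdeg : Divisor.degree (E - Finsupp.single (oo N) m) = 0 := by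
    have h1 := Rat_degree_of_isPrincipal hEp
    have h2 : Divisor.degree (D : Divisor Qb (FB N)) = 0 := D.2
    have e : E - Finsupp.single (oo N) m =
        (E - ((D : Divisor Qb (FB N)) + Finsupp.single (oo N) m)) + (D : Divisor Qb (FB N)) := by
      abel
    rw [e, map_add, h1, h2, add_zero]
  refine ⟨⟨E - Finsupp.single (oo N) m, hdeg⟩, ?_, ?_⟩
  · rw [mk_eq_mk_iff]
    have e : E - Finsupp.single (oo N) m - (D : Divisor Qb (FB N)) =
        E - ((D : Divisor Qb (FB N)) + Finsupp.single (oo N) m) := by abel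
    show Divisor.IsPrincipal (E - Finsupp.single (oo N) m - (D : Divisor Qb (FB N)))
    rw [e]
    exact hEp
  · intro σ
    show gal N σ • (E - Finsupp.single (oo N) m) = E - Finsupp.single (oo N) m
    rw [smul_sub, hstab σ, SemilinearAut.smul_single, gal_smul_oo]

end Fermat.Agent.S17.WMW
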