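import Fermat.Agent.S17.WMWK.Main

/-!
# S17-WMW : one finite level for all the cocycles `σ ↦ σ y - y`, `2 y ∈ J^G`
(abstract `G_ℚ`-module `J`; uses `WMWK.exists_level`)
-/

set_option autoImplicit false

namespace Fermat.Agent.S17.WMW

open Fermat.Agent.S55.DIC

/-- `G_K` has finite index in `G_ℚ` for a number field `K`.
[Mathlib: `IntermediateField.finrank_eq_fixingSubgroup_index` or the landed S55 files (grep
`fixingSubgroup` + `FiniteIndex` in Fermat/Agent/S55).] -/
theorem finiteIndex_fixingSubgroup (K : IntermediateField ℚ Qb) [FiniteDimensional ℚ K] :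
    K.fixingSubgroup.FiniteIndex := by
  have : IsAlgClosure ℚ Qb := ⟨inferInstance, AlgebraicClosure.isAlgebraic ℚ⟩
  have : Normal ℚ Qb := IsAlgClosure.normal ℚ Qb
  have : IsGalois ℚ Qb := ⟨⟩
  refine ⟨?_⟩
  rw [← IntermediateField.finrank_eq_fixingSubgroup_index]
  exact Module.finrank_pos.ne'

/-- a finite set of elements with open stabilisers is fixed by one `G_K'`. -/
theorem exists_level_of_finite {J : Type*} [AddCommGroup J] [DistribMulAction GQ J]
    (hopen : ∀ y : J, ∃ L : IntermediateField ℚ Qb, FiniteDimensional ℚ L ∧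
      ∀ τ ∈ L.fixingSubgroup, τ • y = y) {Z : Set J} (hZ : Z.Finite) :
    ∃ K' : IntermediateField ℚ Qb, FiniteDimensional ℚ K' ∧
      ∀ z ∈ Z, ∀ τ ∈ K'.fixingSubgroup, τ • z = z := by
  induction Z, hZ using Set.Finite.induction_on with
  | empty => exact ⟨⊥, inferInstance, fun z hz => absurd hz (Set.notMem_empty z)⟩
  | @insert a Z _ _ ih =>
    obtain ⟨K', hK', h⟩ := ih
    obtain ⟨L, hL, hLa⟩ := hopen a
    refine ⟨K' ⊔ L, IntermediateField.finiteDimensional_sup K' L, ?_⟩
    intro z hz τ hτ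
    rcases Set.mem_insert_iff.mp hz with rfl | hz
    · exact hLa τ (IntermediateField.fixingSubgroup_antitone le_sup_right hτ)
    · exact h z hz τ (IntermediateField.fixingSubgroup_antitone le_sup_left hτ)

/-- PROOF. `K'` := level of `J[2]` (`exists_level_of_finite`).  `K''` := `WMWK.exists_level K' S`.
For `y` with `2 y` fixed by `G_ℚ` apply it to `B := {z : J // 2 • z = 0}` (an `AddSubgroup`, e.g.
`(nsmulAddMonoidHom 2).ker`) and `c σ := σ • y - y`: `c (σ τ) = σ • c τ + c σ = c τ + c σ` for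
`σ ∈ G_K'`; `c = 0` on the level of `y` (`hopen`); `c σ = 0` for `σ` in inertia outside `S` (`hunr`). -/
theorem exists_level_field {J : Type*} [AddCommGroup J] [DistribMulAction GQ J]
    (hfin : {z : J | 2 • z = 0}.Finite)
    (hopen : ∀ y : J, ∃ L : IntermediateField ℚ Qb, FiniteDimensional ℚ L ∧
      ∀ τ ∈ L.fixingSubgroup, τ • y = y)
    (S : Finset ℕ)
    (hunr : ∀ p : ℕ, p.Prime → p ∉ S → ∀ A : ValuationSubring Qb, A.LiesOverPrime p →
      ∀ σ ∈ A.inertiaSubgroupIn ℚ, ∀ y : J, (∀ τ : GQ, τ • (2 • y) = 2 • y) → σ • y = y) :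
    ∃ K'' : IntermediateField ℚ Qb, FiniteDimensional ℚ K'' ∧
      ∀ y : J, (∀ σ : GQ, σ • (2 • y) = 2 • y) → ∀ τ ∈ K''.fixingSubgroup, τ • y = y := by
  obtain ⟨K', hK', hK'2⟩ := exists_level_of_finite hopen hfin
  obtain ⟨K'', hK'', -, h⟩ := WMWK.exists_level K' S
  refine ⟨K'', hK'', ?_⟩
  intro y hy τ hτ
  -- the cocycle has values in `J[2]`
  have hc2 : ∀ σ : GQ, (2 : ℕ) • (σ • y - y) = 0 := by
    intro σ
    rw [smul_sub, ← smul_comm σ (2 : ℕ) y, hy σ, sub_self]
  let B : AddSubgroup J := (nsmulAddMonoidHom (α := J) 2).ker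
  have hB : ∀ σ : GQ, σ • y - y ∈ B := fun σ => hc2 σ
  let c : GQ → B := fun σ => ⟨σ • y - y, hB σ⟩
  have hres := h B c
    (by
      intro b
      apply Subtype.ext
      have hb : (2 : ℕ) • (b : J) = 0 := b.2
      rw [two_nsmul] at hb
      exact hb)
    (by
      intro σ hσ τ _
      apply Subtype.ext
      show (σ * τ) • y - y = (σ • y - y) + (τ • y - y)
      have h1 : σ • (τ • y - y) = τ • y - y := hK'2 _ (hc2 τ) σ hσ
      rw [smul_sub] at h1
      rw [mul_smul]
      have h2 : σ • τ • y = τ • y - y + σ • y := by rw [← h1]; abel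
      rw [h2]
      abel)
    (by
      obtain ⟨L, hL, hLy⟩ := hopen y
      refine ⟨L, hL, fun τ hτ => ?_⟩
      apply Subtype.ext
      show τ • y - y = 0
      rw [hLy τ hτ, sub_self])
    (by
      intro p hp hpS A hA σ hσ _
      apply Subtype.ext
      show σ • y - y = 0
      rw [hunr p hp hpS A hA σ hσ y hy, sub_self])
    τ hτ
  have h3 : τ • y - y = 0 := congrArg Subtype.val hres
  exact sub_eq_zero.mp h3

end Fermat.Agent.S17.WMW
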