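import Fermat.Agent.S17.WMW.Setup
import Fermat.Agent.GR.F.Normalize
import Fermat.Agent.GR.F.Red

/-!
# S17-WMW : inertia, integrality, congruences and primitivity of `q`-expansions
-/

set_option autoImplicit false
set_option synthInstance.maxHeartbeats 400000

noncomputable section

namespace Fermat.Agent.S17.WMW

open AlgebraicCurve ModularCurve Fermat.Agent.GR

variable (A : ValuationSubring Qb)

theorem UnrA_sub_mem {σ : GQ} (hσ : σ ∈ A.inertiaSubgroupIn ℚ) {c : Qb}
    (hc : c ∈ A) : σ c - c ∈ A.nonunits := by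
  obtain ⟨g, hg, rfl⟩ := Subgroup.mem_map.mp hσ
  have h1 : MulSemiringAction.toRingAut (A.decompositionSubgroup ℚ)
      (IsLocalRing.ResidueField A) g = 1 := MonoidHom.mem_ker.mp hg
  have h2 : g • IsLocalRing.residue A ⟨c, hc⟩ = IsLocalRing.residue A ⟨c, hc⟩ := by
    have := congrArg (fun f => f (IsLocalRing.residue A ⟨c, hc⟩)) h1
    simpa using this
  rw [← IsLocalRing.ResidueField.residue_smul, ← sub_eq_zero, ← map_sub,
    IsLocalRing.residue_eq_zero_iff] at h2
  have h3 := ValuationSubring.coe_mem_nonunits_iff.mpr h2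
  exact h3

/-- elements of the inertia group preserve `A` ... -/
theorem apply_mem_of_mem_inertia {σ : GQ} (hσ : σ ∈ A.inertiaSubgroupIn ℚ) {c : Qb} (hc : c ∈ A) :
    σ c ∈ A := by
  have h1 : σ c - c ∈ A := ValuationSubring.nonunits_subset (UnrA_sub_mem A hσ hc)
  have h2 : σ c = (σ c - c) + c := by ring
  rw [h2]
  exact A.add_mem _ _ h1 hc

/-- ... and act trivially on the residue field.
[`inertiaSubgroupIn = (inertiaSubgroup).map subtype`; `ValuationSubring.inertiaSubgroup` is the kernel of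
the action on the residue field; see GR/F/RedGal.lean `red_actA_of_mem_inertia`, Lib/Frobenius.lean and
S05.inertia_sub_mem for the same unfolding.] -/
theorem apply_sub_mem_of_mem_inertia {σ : GQ} (hσ : σ ∈ A.inertiaSubgroupIn ℚ) {c : Qb}
    (hc : c ∈ A) : σ c - c ∈ A.nonunits := by
  exact UnrA_sub_mem A hσ hc

theorem isInt_coeffMap {σ : GQ} (hσ : σ ∈ A.inertiaSubgroupIn ℚ) {f : LaurentSeries Qb}
    (hf : IsInt A f) : IsInt A (coeffMap (σ : Qb →+* Qb) f) := by
  intro n
  rw [coeffMap_coeff]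
  exact apply_mem_of_mem_inertia A hσ (hf n)

theorem cong_coeffMap {σ : GQ} (hσ : σ ∈ A.inertiaSubgroupIn ℚ) {f : LaurentSeries Qb}
    (hf : IsInt A f) : Cong A (coeffMap (σ : Qb →+* Qb) f) f := by
  intro n
  rw [coeffMap_coeff]
  exact apply_sub_mem_of_mem_inertia A hσ (hf n)

/-- congruences can be multiplied.  [via `GR.isInt_iff`, `GR.cong_incl_iff` (Red.lean): `red` is a ring hom.] -/
theorem Cong.mul' {a a' b b' : LaurentSeries Qb} (ha : IsInt A a) (ha' : IsInt A a')
    (hb : IsInt A b) (hb' : IsInt A b') (h : Cong A a a') (h' : Cong A b b') :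
    Cong A (a * b) (a' * b') := by
  obtain ⟨x, rfl⟩ := (isInt_iff A).1 ha
  obtain ⟨x', rfl⟩ := (isInt_iff A).1 ha'
  obtain ⟨y, rfl⟩ := (isInt_iff A).1 hb
  obtain ⟨y', rfl⟩ := (isInt_iff A).1 hb'
  rw [cong_incl_iff] at h h'
  rw [← map_mul, ← map_mul, cong_incl_iff, map_mul, map_mul, h, h']

/-- Gauss' lemma.  [`GR.isPrim_iff`/`isPrim_incl_iff`: `red` is a ring hom into a domain.] -/
theorem IsPrim.mul' {a b : LaurentSeries Qb} (ha : IsPrim A a) (hb : IsPrim A b) :
    IsPrim A (a * b) := by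
  obtain ⟨x, rfl, hx⟩ := (isPrim_iff A).1 ha
  obtain ⟨y, rfl, hy⟩ := (isPrim_iff A).1 hb
  rw [← map_mul, isPrim_incl_iff, map_mul]
  exact mul_ne_zero hx hy

/-- a series congruent to a primitive one is primitive. -/
theorem IsPrim.of_cong {a b : LaurentSeries Qb} (ha : IsPrim A a) (hb : IsInt A b)
    (h : Cong A b a) : IsPrim A b := by
  obtain ⟨x, rfl, hx⟩ := (isPrim_iff A).1 ha
  obtain ⟨y, rfl⟩ := (isInt_iff A).1 hb
  rw [cong_incl_iff] at h
  rw [isPrim_incl_iff, h]
  exact hx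

end Fermat.Agent.S17.WMW
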