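import Fermat.Agent.S17.WMW.Rat
import Fermat.Agent.S17.WMW.UnrA

/-!
# S17-WMW : (UNR) inertia at a place of good reduction acts trivially on the halves of rational
classes, from the crux lemma of project GR
-/

set_option autoImplicit false
set_option synthInstance.maxHeartbeats 400000
set_option linter.unusedSectionVars false

noncomputable section

namespace Fermat.Agent.S17.WMW

open AlgebraicCurve ModularCurve Fermat.Agent.GR

variable {A : ValuationSubring Qb} (N : ℕ) [NeZero N]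

/-- the heart: `σ f / f` is a constant times a square as soon as all its orders are even.
PROOF. `f = κ f₁/g₁` (`GR.exists_normalized A N`, after `S18.bar_eq_FF`).  `a := σ f₁ * g₁`, `b := f₁ * σ g₁`:
`IsPrim a`, `IsInt b`, `Cong a b`; `a / b = (σ f / f) * (κ / σ κ)` has the same orders as `σ f / f`
(`S18.pinf_ord_algebraMap`), transported to `FF Qb N` by `S18.dvd_ord_transport (S18.bar_eq_FF N)`.
`hcrux` gives `z` with `a = b * z ^ 2`. -/
theorem exists_sq_of_crux (hcrux : S18.GRCrux A N 2) {σ : GQ} (hσ : σ ∈ A.inertiaSubgroupIn ℚ)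
    (f : FB N) (hf : f ≠ 0)
    (heven : ∀ v : Place Qb (FB N), (2 : ℤ) ∣ v.ord (gal N σ • f) - v.ord f) :
    ∃ z : FB N, z ≠ 0 ∧ ∀ v : Place Qb (FB N), v.ord (gal N σ • f) - v.ord f = 2 * v.ord z := by
  have hFF : FB N = GR.FF Qb N := S18.bar_eq_FF N
  have hfF : (f : LaurentSeries Qb) ∈ GR.FF Qb N := hFF ▸ f.2
  have hf0 : (f : LaurentSeries Qb) ≠ 0 := fun h => hf (Subtype.ext h)
  have halg : Algebra.IsAlgebraic ℚ Qb := AlgebraicClosure.isAlgebraic ℚ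
  obtain ⟨κ, f₁, g₁, hκ, hf₁, hg₁, hpf, hpg, hfeq⟩ := GR.exists_normalized A N hfF hf0
  set s : LaurentSeries Qb →+* LaurentSeries Qb := coeffMap (σ : Qb →+* Qb) with hs
  have hf₁0 : f₁ ≠ 0 := by
    rintro rfl
    rw [zero_div, mul_zero] at hfeq
    exact hf0 hfeq
  have hg₁0 : g₁ ≠ 0 := by
    rintro rfl
    rw [div_zero, mul_zero] at hfeq
    exact hf0 hfeq
  have hsf₁0 : s f₁ ≠ 0 := (map_ne_zero s).mpr hf₁0
  have hsg₁0 : s g₁ ≠ 0 := (map_ne_zero s).mpr hg₁0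
  have hsf₁ : s f₁ ∈ GR.FF Qb N := GR.C.coeffMap_mem_FF N _ hf₁
  have hsg₁ : s g₁ ∈ GR.FF Qb N := GR.C.coeffMap_mem_FF N _ hg₁
  have ha : s f₁ * g₁ ∈ GR.FF Qb N := mul_mem hsf₁ hg₁
  have hb : f₁ * s g₁ ∈ GR.FF Qb N := mul_mem hf₁ hsg₁
  have ha0 : s f₁ * g₁ ≠ 0 := mul_ne_zero hsf₁0 hg₁0
  have hb0 : f₁ * s g₁ ≠ 0 := mul_ne_zero hf₁0 hsg₁0
  have hcf : Cong A (s f₁) f₁ := cong_coeffMap A hσ hpf.1
  have hcg : Cong A (s g₁) g₁ := cong_coeffMap A hσ hpg.1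
  have hcg' : Cong A g₁ (s g₁) := by
    intro n
    have := hcg n
    rw [ValuationSubring.mem_nonunits_iff] at this ⊢
    rwa [Valuation.map_sub_swap]
  have hpsf : IsPrim A (s f₁) := IsPrim.of_cong A hpf (isInt_coeffMap A hσ hpf.1) hcf
  have hpsg : IsPrim A (s g₁) := IsPrim.of_cong A hpg (isInt_coeffMap A hσ hpg.1) hcg
  have hpa : IsPrim A (s f₁ * g₁) := IsPrim.mul' A hpsf hpg
  have hib : IsInt A (f₁ * s g₁) := (IsPrim.mul' A hpf hpsg).1
  have hab : Cong A (s f₁ * g₁) (f₁ * s g₁) :=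
    Cong.mul' A hpsf.1 hpf.1 hpg.1 hpsg.1 hcf hcg'
  -- the quotient `a / b` as an element of `FB N`
  have huB : s f₁ * g₁ / (f₁ * s g₁) ∈ FB N := hFF ▸ div_mem ha hb
  have hσκ : σ κ ≠ 0 := (map_ne_zero σ).mpr hκ
  have hu : (⟨s f₁ * g₁ / (f₁ * s g₁), huB⟩ : FB N)
      = algebraMap Qb (FB N) (κ / σ κ) * ((gal N σ • f) * f⁻¹) := by
    apply Subtype.ext
    have h1 : ((algebraMap Qb (FB N) (κ / σ κ) * ((gal N σ • f) * f⁻¹) : FB N) : LaurentSeries Qb)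
        = HahnSeries.C (κ / σ κ) * (s (f : LaurentSeries Qb) * (f : LaurentSeries Qb)⁻¹) := by
      rw [GR.kummer_C_eq_algebraMap]
      rfl
    rw [h1, hfeq, map_mul, map_div₀]
    have h2 : s (HahnSeries.C κ) = HahnSeries.C (σ κ) := by
      rw [hs, HahnSeries.C_apply, coeffMap_single]
      rfl
    have h3 : (HahnSeries.C κ : LaurentSeries Qb) ≠ 0 := by
      rw [Ne, map_eq_zero]; exact hκ
    have h4 : (HahnSeries.C (σ κ) : LaurentSeries Qb) ≠ 0 := by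
      rw [Ne, map_eq_zero]; exact hσκ
    rw [h2, map_div₀]
    field_simp
  have hgf0 : gal N σ • f ≠ 0 := by
    intro h
    apply hf
    have := congrArg (fun x => (gal N σ)⁻¹ • x) h
    simpa using this
  have hu_ord : ∀ v : Place Qb (FB N), v.ord (⟨s f₁ * g₁ / (f₁ * s g₁), huB⟩ : FB N)
      = v.ord (gal N σ • f) - v.ord f := by
    intro v
    have hc0 : algebraMap Qb (FB N) (κ / σ κ) ≠ 0 := by
      rw [Ne, map_eq_zero]; exact div_ne_zero hκ hσκ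
    rw [hu, v.ord_mul hc0 (mul_ne_zero hgf0 (inv_ne_zero hf)), S18.pinf_ord_algebraMap, zero_add,
      v.ord_mul hgf0 (inv_ne_zero hf), v.ord_inv, sub_eq_add_neg]
  have hK : IsKummer (N := N) 2 (s f₁ * g₁ / (f₁ * s g₁)) := by
    refine ⟨div_ne_zero ha0 hb0, div_mem ha hb, ?_⟩
    refine S18.dvd_ord_transport hFF ((2 : ℕ) : ℤ) _ huB _ fun v => ?_
    rw [hu_ord v]
    exact_mod_cast heven v
  obtain ⟨z, hzF, hz0, hz⟩ := hcrux _ _ ha hb hpa hib hab hK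
  have hzB : z ∈ FB N := hFF ▸ hzF
  refine ⟨⟨z, hzB⟩, fun h => hz0 (congrArg Subtype.val h), fun v => ?_⟩
  rw [← hu_ord v]
  have h5 : (⟨s f₁ * g₁ / (f₁ * s g₁), huB⟩ : FB N) = (⟨z, hzB⟩ : FB N) ^ 2 := by
    apply Subtype.ext
    show s f₁ * g₁ / (f₁ * s g₁) = z ^ 2
    rw [hz, mul_div_cancel_left₀ _ hb0]
  rw [h5, S18.ord_pow']
  norm_num

/-- **(UNR)**.  PROOF. `x := 2 y = [D₀]`, `D₀` stable (`exists_stable_divisor`), `y = [D]`, `D₀ - 2 D = div f`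
(`mk_eq_mk_iff`).  `ord_v (σ f) - ord_v f = (σ (D₀ - 2D) - (D₀ - 2D)) v = - 2 (σ D - D) v`
(`ord_gal_smul'`, `SemilinearAut.divisor_smul_apply`).  `exists_sq_of_crux` ⟹ `(σ D - D) v = ord_v z⁻¹`. -/
theorem smul_eq_of_crux (hcrux : S18.GRCrux A N 2) {σ : GQ} (hσ : σ ∈ A.inertiaSubgroupIn ℚ)
    (y : JZero N) (hy : ∀ τ : GQ, τ • (2 • y) = 2 • y) : σ • y = y := by
  obtain ⟨D₀, hD₀, hstab⟩ := exists_stable_divisor N (2 • y) hy
  obtain ⟨D, rfl⟩ := Pic0.mk_surjective y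
  have h1 : (Pic0.mk D₀ : JZero N) = Pic0.mk (2 • D) := hD₀
  obtain ⟨f, hf, hfD⟩ := (mk_eq_mk_iff D₀ (2 • D)).mp h1
  have hfD' : ∀ v : Place Qb (FB N), v.ord f
      = (D₀ : Divisor Qb (FB N)) v - 2 * (D : Divisor Qb (FB N)) v := by
    intro v
    rw [← hfD v, Finsupp.sub_apply, AddSubgroup.coe_nsmul, Finsupp.smul_apply]
    simp
  have heq : ∀ v : Place Qb (FB N), v.ord (gal N σ • f) - v.ord f
      = 2 * -((gal N σ • (D : Divisor Qb (FB N))) v - (D : Divisor Qb (FB N)) v) := by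
    intro v
    have h2 : (D₀ : Divisor Qb (FB N)) ((gal N σ)⁻¹ • v) = (D₀ : Divisor Qb (FB N)) v := by
      rw [← SemilinearAut.divisor_smul_apply, hstab]
    rw [ord_gal_smul', hfD', hfD', h2, SemilinearAut.divisor_smul_apply]
    ring
  obtain ⟨z, hz0, hz⟩ := exists_sq_of_crux N hcrux hσ f hf
    (fun v => by rw [heq v]; exact Dvd.intro _ rfl)
  rw [smul_mk, mk_eq_mk_iff]
  refine ⟨z⁻¹, inv_ne_zero hz0, fun v => ?_⟩
  have h3 := hz v
  rw [heq v] at h3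
  rw [v.ord_inv, Finsupp.sub_apply, SemilinearAut.coe_degZeroSMulHom]
  linarith

end Fermat.Agent.S17.WMW
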