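import Fermat.Agent.S17.WMW.Abs
import Fermat.Agent.S17.WMW.Level
import Fermat.Agent.S17.WMW.OpenStab
import Fermat.Agent.S17.WMW.Unr
import Fermat.Agent.S17.WMW.Fin
import Fermat.Agent.S18.FromModel
import Fermat.Agent.GR.I.Build
import Fermat.Agent.GR.I.CharTheoryMk
import Fermat.Agent.GR.D.Top.Main

/-!
# S17-WMW : weak Mordell-Weil for `J₀(N)`
-/

set_option autoImplicit false
set_option synthInstance.maxHeartbeats 400000

noncomputable section

namespace Fermat.Agent.S17.WMW

open AlgebraicCurve ModularCurve Fermat.Agent.GR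

variable (N : ℕ) [NeZero N]

/-- the hypothesis (UNR), for a finite set `S` of bad primes. -/
def Unr (S : Finset ℕ) : Prop :=
  ∀ p : ℕ, p.Prime → p ∉ S → ∀ A : ValuationSubring Qb, A.LiesOverPrime p →
    ∀ σ ∈ A.inertiaSubgroupIn ℚ, ∀ y : JZero N, (∀ τ : GQ, τ • (2 • y) = 2 • y) → σ • y = y

/-- weak Mordell-Weil, hypothesis form. -/
theorem weak_mordell_weil_of (S : Finset ℕ) (hunr : Unr N S)
    (hfin : {z : JZero N | 2 • z = 0}.Finite) (hdiv : ∀ x : JZero N, ∃ y : JZero N, 2 • y = x) :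
    (nsmulAddMonoidHom (α := ↥(FixedPoints.addSubgroup GQ (JZero N))) 2).range.FiniteIndex := by
  obtain ⟨K'', hK'', h⟩ := exists_level_field hfin (exists_level_class N) S hunr
  exact finiteIndex_of_level hdiv hfin K''.fixingSubgroup (finiteIndex_fixingSubgroup K'') h

/-- (UNR) from the smooth model. -/
theorem unr_of_modelExists (hD : E.ModelExists) : Unr N (2 * N).primeFactors := by
  intro p hp hpS A hA σ hσ y hy
  have h2N : ¬ p ∣ 2 * N := fun h =>
    hpS (Nat.mem_primeFactors.mpr ⟨hp, h, mul_ne_zero two_ne_zero (NeZero.ne N)⟩)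
  exact smul_eq_of_crux N
    (S18.grCrux_of_modelExists hD N hp (fun h => h2N (h.mul_left 2)) A hA 2
      (fun h => h2N (h.mul_right N))) hσ y hy

/-- **weak Mordell-Weil** modulo GR-D (`ModelExists`), GR-A (`CharTheory`) and S17-DIV. -/
theorem weak_mordell_weil (hD : E.ModelExists) (T : I.CharTheory N)
    (hdiv : ∀ x : JZero N, ∃ y : JZero N, 2 • y = x) :
    (nsmulAddMonoidHom (α := ↥(FixedPoints.addSubgroup GQ (JZero N))) 2).range.FiniteIndex := by
  let ι : Qb →+* ℂ := (IsAlgClosed.lift (R := ℚ) (S := Qb) (M := ℂ)).toRingHom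
  exact weak_mordell_weil_of N _ (unr_of_modelExists N hD)
    (finite_torsion (T.toKummerData ι) 2 two_pos) hdiv

/-- **weak Mordell-Weil** modulo S17-DIV only. -/
theorem weak_mordell_weil_of_div (hdiv : ∀ x : JZero N, ∃ y : JZero N, 2 • y = x) :
    (nsmulAddMonoidHom (α := ↥(FixedPoints.addSubgroup GQ (JZero N))) 2).range.FiniteIndex :=
  weak_mordell_weil N D.Top.modelExists (I.charTheory N) hdiv

end Fermat.Agent.S17.WMW
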