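import Mathlib

/-!
# S17-WMW : the abstract cocycle argument (pure group theory)
-/

set_option autoImplicit false

namespace Fermat.Agent.S17.WMW

/-- a subgroup `R` has finite index as soon as there is a map `f` to a finite type whose fibres lie
in cosets of `R`.  [`q ↦ f q.out` is injective on `Γ ⧸ R`.] -/
theorem finiteIndex_of_map {Γ X : Type*} [AddCommGroup Γ] [Finite X] (R : AddSubgroup Γ)
    (f : Γ → X) (h : ∀ x x' : Γ, f x = f x' → x - x' ∈ R) : R.FiniteIndex := by
  have hinj : Function.Injective (fun q : Γ ⧸ R => f q.out) := by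
    intro q q' hq
    have h1 := h _ _ hq
    rw [← QuotientAddGroup.out_eq' q, ← QuotientAddGroup.out_eq' q']
    rw [QuotientAddGroup.eq]
    have : -q.out + q'.out = -(q.out - q'.out) := by abel
    rw [this]
    exact R.neg_mem h1
  have : Finite (Γ ⧸ R) := Finite.of_injective _ hinj
  exact AddSubgroup.finiteIndex_of_finite_quotient

/-- **abstract weak Mordell-Weil.**  `Γ = J^G`.  For `x ∈ Γ` choose `y_x` with `2 y_x = x` and put
`f x : G ⧸ H → J[2]`, `q ↦ q.out • y_x - y_x`.  Every `σ` is `q.out * τ` with `τ ∈ H` and `τ • y_x = y_x`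
by `hH`; so `f x = f x'` gives `σ • (y_x - y_x') = y_x - y_x'` for all `σ`, i.e. `y_x - y_x' ∈ Γ` and
`x - x' = 2 (y_x - y_x')`.  Conclude by `finiteIndex_of_map`. -/
theorem finiteIndex_of_level {G J : Type*} [Group G] [AddCommGroup J] [DistribMulAction G J]
    (hdiv : ∀ x : J, ∃ y : J, 2 • y = x)
    (hfin : {z : J | 2 • z = 0}.Finite)
    (H : Subgroup G) (hHfin : H.FiniteIndex)
    (hH : ∀ y : J, (∀ σ : G, σ • (2 • y) = 2 • y) → ∀ τ ∈ H, τ • y = y) :
    (nsmulAddMonoidHom (α := ↥(FixedPoints.addSubgroup G J)) 2).range.FiniteIndex := by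
  classical
  choose y hy using hdiv
  have hfix : ∀ x : ↥(FixedPoints.addSubgroup G J), ∀ σ : G, σ • (x : J) = x := fun x σ => x.2 σ
  have hτ : ∀ x : ↥(FixedPoints.addSubgroup G J), ∀ τ ∈ H, τ • y x = y x := by
    intro x τ hτ
    refine hH (y x) ?_ τ hτ
    intro σ
    rw [hy]
    exact hfix x σ
  have hmem : ∀ (x : ↥(FixedPoints.addSubgroup G J)) (σ : G),
      σ • y x - y x ∈ {z : J | 2 • z = 0} := by
    intro x σ
    change 2 • (σ • y x - y x) = 0
    rw [smul_sub, smul_comm, hy, hfix x σ, sub_self]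
  have : Finite ↥{z : J | 2 • z = 0} := hfin
  have : Finite (G ⧸ H) := Subgroup.finite_quotient_of_finiteIndex
  let f : ↥(FixedPoints.addSubgroup G J) → (G ⧸ H → ↥{z : J | 2 • z = 0}) :=
    fun x q => ⟨q.out • y x - y x, hmem x q.out⟩
  refine finiteIndex_of_map _ f ?_
  intro x x' hxx'
  -- `σ • (y x - y x') = y x - y x'`
  have hσ : ∀ σ : G, σ • (y x - y x') = y x - y x' := by
    intro σ
    set q : G ⧸ H := (σ : G ⧸ H) with hq
    have hout : (q.out)⁻¹ * σ ∈ H := by
      rw [← QuotientGroup.eq, QuotientGroup.out_eq']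
    obtain ⟨τ, hτdef⟩ : ∃ τ, τ = (q.out)⁻¹ * σ := ⟨_, rfl⟩
    rw [← hτdef] at hout
    have hσeq : σ = q.out * τ := by rw [hτdef]; group
    have h1 : q.out • y x - y x = q.out • y x' - y x' := by
      have := congrFun hxx' q
      exact congrArg Subtype.val this
    have e1 : σ • y x = q.out • y x := by rw [hσeq, mul_smul, hτ x τ hout]
    have e2 : σ • y x' = q.out • y x' := by rw [hσeq, mul_smul, hτ x' τ hout]
    rw [smul_sub, e1, e2]
    have : q.out • y x - q.out • y x' = (q.out • y x - y x) - (q.out • y x' - y x') + (y x - y x') := by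
      abel
    rw [this, h1, sub_self, zero_add]
  refine ⟨⟨y x - y x', hσ⟩, ?_⟩
  ext
  simp only [nsmulAddMonoidHom_apply, AddSubgroup.coe_nsmul, AddSubgroup.coe_sub]
  rw [smul_sub, hy, hy]

end Fermat.Agent.S17.WMW
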